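import Mathlib

/-!
# Sophie Germain's theorem (first case of Fermat's Last Theorem with an auxiliary prime)

If `p` is an odd prime and `q` is a prime such that
* `x ^ p + y ^ p + z ^ p = 0` in `ZMod q` forces `x = 0 ∨ y = 0 ∨ z = 0`, and
* `p` is not a `p`-th power in `ZMod q`,
then every pairwise coprime integer solution of `x ^ p + y ^ p + z ^ p = 0` has `p ∣ x * y * z`.
-/

set_option autoImplicit false

namespace Fermat.Agent.H44

open Finset

/-- The cofactor `(y ^ p + z ^ p) / (y + z)` as a geometric sum. -/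
def sgPhi (p : ℕ) (y z : ℤ) : ℤ := ∑ i ∈ range p, y ^ i * (-z) ^ (p - 1 - i)

lemma sgPhi_mul {p : ℕ} (hp : Odd p) (y z : ℤ) : (y + z) * sgPhi p y z = y ^ p + z ^ p := by
  have h := geom_sum₂_mul y (-z) p
  rw [hp.neg_pow, sub_neg_eq_add, sub_neg_eq_add] at h
  rw [mul_comm]
  exact h

lemma sgPhi_isCoprime {p : ℕ} (hp : p.Prime) (hodd : Odd p) {y z : ℤ} (hyz : IsCoprime y z)
    (hpx : ¬ (p : ℤ) ∣ y ^ p + z ^ p) : IsCoprime (y + z) (sgPhi p y z) := by
  apply isCoprime_of_prime_dvd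
  · rintro ⟨h0, -⟩
    apply hpx
    rw [← sgPhi_mul hodd, h0, zero_mul]
    exact dvd_zero _
  · intro r hr hr1 hr2
    have hsub : r ∣ y - (-z) := by rwa [sub_neg_eq_add]
    have h3 : r ∣ (p : ℤ) * (-z) ^ (p - 1) := by
      have := (dvd_geom_sum₂_iff_of_dvd_sub (n := p) hsub).mp hr2
      exact_mod_cast this
    rcases hr.dvd_or_dvd h3 with h4 | h4
    · -- `r ∣ p`, so `p ∣ r`, so `p ∣ y + z ∣ y ^ p + z ^ p`
      have hpp : Prime (p : ℤ) := Nat.prime_iff_prime_int.mp hp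
      have hass : Associated r (p : ℤ) := hr.associated_of_dvd hpp h4
      apply hpx
      rw [← sgPhi_mul hodd]
      exact Dvd.dvd.mul_right (hass.symm.dvd.trans hr1) _
    · have hz : r ∣ z := by
        have := hr.dvd_of_dvd_pow h4
        rwa [dvd_neg] at this
      have hy : r ∣ y := by
        have := dvd_sub hr1 hz
        rwa [add_sub_cancel_right] at this
      exact hr.not_isUnit (hyz.isUnit_of_dvd' hy hz)

/-- If `y ^ p + z ^ p = (-x) ^ p` with `y, z` coprime and `p ∤ x`, then `y + z` and the cofactor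
are both `p`-th powers. -/
lemma sg_exists_pow {p : ℕ} (hp : p.Prime) (hodd : Odd p) {x y z : ℤ} (hyz : IsCoprime y z)
    (hpx : ¬ (p : ℤ) ∣ x) (h : x ^ p + y ^ p + z ^ p = 0) :
    (∃ a : ℤ, y + z = a ^ p) ∧ ∃ α : ℤ, sgPhi p y z = α ^ p := by
  have hpp : Prime (p : ℤ) := Nat.prime_iff_prime_int.mp hp
  have hsum : y ^ p + z ^ p = (-x) ^ p := by rw [hodd.neg_pow]; linarith
  have hnd : ¬ (p : ℤ) ∣ y ^ p + z ^ p := by
    rw [hsum]
    intro hd
    exact hpx ((dvd_neg.mp (hpp.dvd_of_dvd_pow hd)))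
  have hcop := sgPhi_isCoprime hp hodd hyz hnd
  have hmul : (y + z) * sgPhi p y z = (-x) ^ p := by rw [sgPhi_mul hodd, hsum]
  exact Int.eq_pow_of_mul_eq_pow_odd hcop hodd hmul

/-- The asymmetric core of Sophie Germain's theorem: `q ∣ x` is impossible. -/
lemma sg_core {p q : ℕ} (hp : p.Prime) (hodd : Odd p) (hq : q.Prime)
    (h1 : ∀ x y z : ZMod q, x ^ p + y ^ p + z ^ p = 0 → x = 0 ∨ y = 0 ∨ z = 0)
    (h2 : ∀ x : ZMod q, x ^ p ≠ (p : ZMod q))
    {x y z : ℤ} (hxy : IsCoprime x y) (hxz : IsCoprime x z) (hyz : IsCoprime y z)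
    (hpx : ¬ (p : ℤ) ∣ x) (hpy : ¬ (p : ℤ) ∣ y) (hpz : ¬ (p : ℤ) ∣ z)
    (h : x ^ p + y ^ p + z ^ p = 0) (hqx : (q : ℤ) ∣ x) : False := by
  have : Fact q.Prime := ⟨hq⟩
  have hqq : Prime (q : ℤ) := Nat.prime_iff_prime_int.mp hq
  obtain ⟨⟨a, ha⟩, ⟨α, hα⟩⟩ := sg_exists_pow hp hodd hyz hpx h
  obtain ⟨⟨b, hb⟩, -⟩ := sg_exists_pow hp hodd hxz.symm hpy (x := y) (y := z) (z := x)
    (by linarith)
  obtain ⟨⟨c, hc⟩, ⟨γ, hγ⟩⟩ := sg_exists_pow hp hodd hxy hpz (x := z) (y := x) (z := y)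
    (by linarith)
  have hx0 : ((x : ℤ) : ZMod q) = 0 := (ZMod.intCast_zmod_eq_zero_iff_dvd x q).mpr hqx
  have hy0 : ((y : ℤ) : ZMod q) ≠ 0 := by
    intro hy0
    have hqy : (q : ℤ) ∣ y := (ZMod.intCast_zmod_eq_zero_iff_dvd y q).mp hy0
    exact hqq.not_isUnit (hxy.isUnit_of_dvd' hqx hqy)
  have hz0 : ((z : ℤ) : ZMod q) ≠ 0 := by
    intro hz0
    have hqz : (q : ℤ) ∣ z := (ZMod.intCast_zmod_eq_zero_iff_dvd z q).mp hz0
    exact hqq.not_isUnit (hxz.isUnit_of_dvd' hqx hqz)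
  -- `b ^ p + c ^ p + (-a) ^ p = 2 * x`
  have hsum : b ^ p + c ^ p + (-a) ^ p = 2 * x := by
    rw [hodd.neg_pow, ← ha, ← hb, ← hc]; ring
  have hsumq : (b : ZMod q) ^ p + (c : ZMod q) ^ p + (-(a : ZMod q)) ^ p = 0 := by
    have := congrArg (Int.cast : ℤ → ZMod q) hsum
    push_cast at this
    rw [this, hx0, mul_zero]
  have haq : ((y : ℤ) : ZMod q) + (z : ZMod q) = (a : ZMod q) ^ p := by
    have := congrArg (Int.cast : ℤ → ZMod q) ha
    push_cast at this
    exact this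
  have hbq : ((z : ℤ) : ZMod q) + (x : ZMod q) = (b : ZMod q) ^ p := by
    have := congrArg (Int.cast : ℤ → ZMod q) hb
    push_cast at this
    exact this
  have hcq : ((x : ℤ) : ZMod q) + (y : ZMod q) = (c : ZMod q) ^ p := by
    have := congrArg (Int.cast : ℤ → ZMod q) hc
    push_cast at this
    exact this
  have hp0 : p ≠ 0 := hp.ne_zero
  rcases h1 _ _ _ hsumq with hb0 | hc0 | ha0
  · apply hz0
    rw [hb0, zero_pow hp0, hx0, add_zero] at hbq
    exact hbq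
  · apply hy0
    rw [hc0, zero_pow hp0, hx0, zero_add] at hcq
    exact hcq
  · have ha0' : (a : ZMod q) = 0 := neg_eq_zero.mp ha0
    rw [ha0', zero_pow hp0] at haq
    have hyz' : ((y : ℤ) : ZMod q) = -(z : ZMod q) := eq_neg_of_add_eq_zero_left haq
    -- `α ^ p = p * y ^ (p - 1)` in `ZMod q`
    have hαq : (α : ZMod q) ^ p = (p : ZMod q) * (y : ZMod q) ^ (p - 1) := by
      have := congrArg (Int.cast : ℤ → ZMod q) hα
      rw [sgPhi] at this
      push_cast at this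
      rw [← this, ← hyz']
      simp only [← pow_add]
      rw [Finset.sum_congr rfl (fun i hi => by
        rw [show i + (p - 1 - i) = p - 1 from by
          have := Finset.mem_range.mp hi; omega])]
      simp
    -- `γ ^ p = y ^ (p - 1)` in `ZMod q`
    have hγq : (γ : ZMod q) ^ p = (y : ZMod q) ^ (p - 1) := by
      have := congrArg (Int.cast : ℤ → ZMod q) hγ
      rw [sgPhi] at this
      push_cast at this
      rw [← this, hx0]
      rw [Finset.sum_eq_single 0]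
      · have hev : Even (p - 1) := by
          rcases hodd with ⟨k, hk⟩
          exact ⟨k, by omega⟩
        simp [hev.neg_pow]
      · intro i _ hi
        rw [zero_pow hi, zero_mul]
      · intro h0
        exact absurd (Finset.mem_range.mpr hp.pos) h0
    have hγ0 : (γ : ZMod q) ^ p ≠ 0 := by
      rw [hγq]
      exact pow_ne_zero _ hy0
    apply h2 ((α : ZMod q) / (γ : ZMod q))
    rw [div_pow, hαq, hγq, mul_div_assoc, div_self (by rw [← hγq]; exact hγ0), mul_one]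

/-- **Sophie Germain's theorem.** -/
theorem sophieGermain {p q : ℕ} (hp : p.Prime) (hp2 : p ≠ 2) (hq : q.Prime)
    (h1 : ∀ x y z : ZMod q, x ^ p + y ^ p + z ^ p = 0 → x = 0 ∨ y = 0 ∨ z = 0)
    (h2 : ∀ x : ZMod q, x ^ p ≠ (p : ZMod q))
    {x y z : ℤ} (hxy : IsCoprime x y) (hxz : IsCoprime x z) (hyz : IsCoprime y z)
    (h : x ^ p + y ^ p + z ^ p = 0) : (p : ℤ) ∣ x * y * z := by
  have : Fact q.Prime := ⟨hq⟩
  have hodd : Odd p := hp.odd_of_ne_two hp2
  by_contra hnd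
  have hpx : ¬ (p : ℤ) ∣ x := fun hd => hnd ((hd.mul_right y).mul_right z)
  have hpy : ¬ (p : ℤ) ∣ y := fun hd => hnd ((hd.mul_left x).mul_right z)
  have hpz : ¬ (p : ℤ) ∣ z := fun hd => hnd (hd.mul_left (x * y))
  have hq0 : (x : ZMod q) ^ p + (y : ZMod q) ^ p + (z : ZMod q) ^ p = 0 := by
    have := congrArg (Int.cast : ℤ → ZMod q) h
    push_cast at this
    exact this
  rcases h1 _ _ _ hq0 with hx | hy | hz
  · exact sg_core hp hodd hq h1 h2 hxy hxz hyz hpx hpy hpz h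
      ((ZMod.intCast_zmod_eq_zero_iff_dvd x q).mp hx)
  · exact sg_core hp hodd hq h1 h2 hyz hxy.symm hxz.symm hpy hpz hpx (by linarith)
      ((ZMod.intCast_zmod_eq_zero_iff_dvd y q).mp hy)
  · exact sg_core hp hodd hq h1 h2 hxz.symm hyz.symm hxy hpz hpx hpy (by linarith)
      ((ZMod.intCast_zmod_eq_zero_iff_dvd z q).mp hz)

end Fermat.Agent.H44
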