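import Mathlib
import Fermat.Prelude.Def_FLTPrelim_FreyPackage
import Fermat.Agent.H44.SophieGermain

/-!
# First case of FLT for the exponents 5, 7, 11, 13 (via Sophie Germain)

Auxiliary primes: `q = 11` for `p = 5`, `q = 29` for `p = 7`, `q = 23` for `p = 11`,
`q = 53` for `p = 13`.
-/

set_option autoImplicit false

namespace Fermat.Agent.H44

/-! ### `p = 5`, `q = 11` -/

theorem sg_pow_5_11 : ∀ x : ZMod 11, x = 0 ∨ x ^ 5 = 1 ∨ x ^ 5 = -1 := by decide

theorem sg_h1_5_11 :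
    ∀ x y z : ZMod 11, x ^ 5 + y ^ 5 + z ^ 5 = 0 → x = 0 ∨ y = 0 ∨ z = 0 := by
  intro x y z h
  rcases sg_pow_5_11 x with hx | hx | hx
  · left; exact hx
  all_goals
    rcases sg_pow_5_11 y with hy | hy | hy
    · right; left; exact hy
    all_goals
      rcases sg_pow_5_11 z with hz | hz | hz
      · right; right; exact hz
      all_goals
        rw [hx, hy, hz] at h
        exact absurd h (by decide)

theorem sg_h2_5_11 : ∀ x : ZMod 11, x ^ 5 ≠ ((5 : ℕ) : ZMod 11) := by decide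

/-! ### `p = 7`, `q = 29` -/

theorem sg_pow_7_29 :
    ∀ x : ZMod 29, x = 0 ∨ x ^ 7 = 1 ∨ x ^ 7 = -1 ∨ x ^ 7 = 12 ∨ x ^ 7 = -12 := by decide

theorem sg_h1_7_29 :
    ∀ x y z : ZMod 29, x ^ 7 + y ^ 7 + z ^ 7 = 0 → x = 0 ∨ y = 0 ∨ z = 0 := by
  intro x y z h
  rcases sg_pow_7_29 x with hx | hx | hx | hx | hx
  · left; exact hx
  all_goals
    rcases sg_pow_7_29 y with hy | hy | hy | hy | hy
    · right; left; exact hy
    all_goals
      rcases sg_pow_7_29 z with hz | hz | hz | hz | hz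
      · right; right; exact hz
      all_goals
        rw [hx, hy, hz] at h
        exact absurd h (by decide)

theorem sg_h2_7_29 : ∀ x : ZMod 29, x ^ 7 ≠ ((7 : ℕ) : ZMod 29) := by decide

/-! ### `p = 11`, `q = 23` -/

theorem sg_pow_11_23 : ∀ x : ZMod 23, x = 0 ∨ x ^ 11 = 1 ∨ x ^ 11 = -1 := by decide

theorem sg_h1_11_23 :
    ∀ x y z : ZMod 23, x ^ 11 + y ^ 11 + z ^ 11 = 0 → x = 0 ∨ y = 0 ∨ z = 0 := by
  intro x y z h
  rcases sg_pow_11_23 x with hx | hx | hx
  · left; exact hx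
  all_goals
    rcases sg_pow_11_23 y with hy | hy | hy
    · right; left; exact hy
    all_goals
      rcases sg_pow_11_23 z with hz | hz | hz
      · right; right; exact hz
      all_goals
        rw [hx, hy, hz] at h
        exact absurd h (by decide)

theorem sg_h2_11_23 : ∀ x : ZMod 23, x ^ 11 ≠ ((11 : ℕ) : ZMod 23) := by decide

/-! ### `p = 13`, `q = 53` -/

set_option maxRecDepth 100000 in
theorem sg_pow_13_53 :
    ∀ x : ZMod 53, x = 0 ∨ x ^ 13 = 1 ∨ x ^ 13 = -1 ∨ x ^ 13 = 23 ∨ x ^ 13 = -23 := by decide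

theorem sg_h1_13_53 :
    ∀ x y z : ZMod 53, x ^ 13 + y ^ 13 + z ^ 13 = 0 → x = 0 ∨ y = 0 ∨ z = 0 := by
  intro x y z h
  rcases sg_pow_13_53 x with hx | hx | hx | hx | hx
  · left; exact hx
  all_goals
    rcases sg_pow_13_53 y with hy | hy | hy | hy | hy
    · right; left; exact hy
    all_goals
      rcases sg_pow_13_53 z with hz | hz | hz | hz | hz
      · right; right; exact hz
      all_goals
        rw [hx, hy, hz] at h
        exact absurd h (by decide)

set_option maxRecDepth 100000 in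
theorem sg_h2_13_53 : ∀ x : ZMod 53, x ^ 13 ≠ ((13 : ℕ) : ZMod 53) := by decide

/-! ### The first case for integers -/

/-- First case of FLT for `p ∈ {5, 7, 11, 13}`: a pairwise coprime solution of
`x ^ p + y ^ p + z ^ p = 0` has `p ∣ x * y * z`. -/
theorem caseI_small {p : ℕ} (hp : p = 5 ∨ p = 7 ∨ p = 11 ∨ p = 13)
    {x y z : ℤ} (hxy : IsCoprime x y) (hxz : IsCoprime x z) (hyz : IsCoprime y z)
    (h : x ^ p + y ^ p + z ^ p = 0) : (p : ℤ) ∣ x * y * z := by
  rcases hp with rfl | rfl | rfl | rfl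
  · exact sophieGermain (q := 11) (by norm_num) (by norm_num) (by norm_num)
      sg_h1_5_11 sg_h2_5_11 hxy hxz hyz h
  · exact sophieGermain (q := 29) (by norm_num) (by norm_num) (by norm_num)
      sg_h1_7_29 sg_h2_7_29 hxy hxz hyz h
  · exact sophieGermain (q := 23) (by norm_num) (by norm_num) (by norm_num)
      sg_h1_11_23 sg_h2_11_23 hxy hxz hyz h
  · exact sophieGermain (q := 53) (by norm_num) (by norm_num) (by norm_num)
      sg_h1_13_53 sg_h2_13_53 hxy hxz hyz h

/-- First case of FLT for `p ∈ {5, 7, 11, 13}`, in the form `a ^ p + b ^ p = c ^ p`. -/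
theorem caseI_small' {p : ℕ} (hp : p = 5 ∨ p = 7 ∨ p = 11 ∨ p = 13)
    {a b c : ℤ} (hab : IsCoprime a b) (hac : IsCoprime a c) (hbc : IsCoprime b c)
    (h : a ^ p + b ^ p = c ^ p) : (p : ℤ) ∣ a * b * c := by
  have hodd : Odd p := by
    rcases hp with rfl | rfl | rfl | rfl <;> decide
  have h' : a ^ p + b ^ p + (-c) ^ p = 0 := by rw [hodd.neg_pow]; linarith
  have := caseI_small hp hab hac.neg_right hbc.neg_right h'
  rwa [mul_neg, dvd_neg] at this

/-- A Frey package with `p ∈ {5, 7, 11, 13}` is in the second case: `p ∣ a * b * c`. -/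
theorem freyPackage_caseI_small (P : FreyPackage)
    (hp : P.p = 5 ∨ P.p = 7 ∨ P.p = 11 ∨ P.p = 13) : (P.p : ℤ) ∣ P.a * P.b * P.c := by
  have hab : IsCoprime P.a P.b := by
    rw [← gcd_isUnit_iff, P.hgcdab]; exact isUnit_one
  have hac : IsCoprime P.a P.c := by
    rw [← gcd_isUnit_iff, P.hgcdac]; exact isUnit_one
  have hbc : IsCoprime P.b P.c := by
    rw [← gcd_isUnit_iff, P.hgcdbc]; exact isUnit_one
  exact caseI_small' hp hab hac hbc P.hFLT

end Fermat.Agent.H44

namespace Fermat.Agent.H44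

/-- From `a ^ p + b ^ p = c ^ p` and `IsCoprime a b` (with `p ≠ 0`) we get `IsCoprime a c`. -/
theorem isCoprime_left_of_flt {p : ℕ} (hp : p ≠ 0) {a b c : ℤ} (hab : IsCoprime a b)
    (h : a ^ p + b ^ p = c ^ p) : IsCoprime a c := by
  have h1 : IsCoprime (a ^ p) (b ^ p) := hab.pow
  have h2 : IsCoprime (a ^ p) (c ^ p) := by
    rw [← h]
    have := h1.add_mul_left_right 1
    rwa [mul_one, add_comm] at this
  exact (IsCoprime.pow_iff (Nat.pos_of_ne_zero hp) (Nat.pos_of_ne_zero hp)).mp h2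

/-- From `a ^ p + b ^ p = c ^ p` and `IsCoprime a b` (with `p ≠ 0`) we get `IsCoprime b c`. -/
theorem isCoprime_right_of_flt {p : ℕ} (hp : p ≠ 0) {a b c : ℤ} (hab : IsCoprime a b)
    (h : a ^ p + b ^ p = c ^ p) : IsCoprime b c :=
  isCoprime_left_of_flt hp hab.symm (by rw [add_comm]; exact h)

/-- First case, in the shape `IsCoprime a b → a ^ p + b ^ p = c ^ p → p ∣ a * b * c`. -/
theorem caseI_of_isCoprime {p : ℕ} (hp : p = 5 ∨ p = 7 ∨ p = 11 ∨ p = 13) (a b c : ℤ)
    (hab : IsCoprime a b) (h : a ^ p + b ^ p = c ^ p) : (p : ℤ) ∣ a * b * c := by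
  have hp0 : p ≠ 0 := by rcases hp with rfl | rfl | rfl | rfl <;> decide
  exact caseI_small' hp hab (isCoprime_left_of_flt hp0 hab h) (isCoprime_right_of_flt hp0 hab h) h

theorem caseI_five (a b c : ℤ) (hab : IsCoprime a b) (h : a ^ 5 + b ^ 5 = c ^ 5) :
    (5 : ℤ) ∣ a * b * c := by
  simpa using caseI_of_isCoprime (p := 5) (by decide) a b c hab h

theorem caseI_seven (a b c : ℤ) (hab : IsCoprime a b) (h : a ^ 7 + b ^ 7 = c ^ 7) :
    (7 : ℤ) ∣ a * b * c := by
  simpa using caseI_of_isCoprime (p := 7) (by decide) a b c hab h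

theorem caseI_eleven (a b c : ℤ) (hab : IsCoprime a b) (h : a ^ 11 + b ^ 11 = c ^ 11) :
    (11 : ℤ) ∣ a * b * c := by
  simpa using caseI_of_isCoprime (p := 11) (by decide) a b c hab h

theorem caseI_thirteen (a b c : ℤ) (hab : IsCoprime a b) (h : a ^ 13 + b ^ 13 = c ^ 13) :
    (13 : ℤ) ∣ a * b * c := by
  simpa using caseI_of_isCoprime (p := 13) (by decide) a b c hab h

end Fermat.Agent.H44
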