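import Mathlib
import Fermat.Prelude.Def_FLTPrelim_FreyPackage
import Fermat.Agent.H44.SophieGermainSmall

/-!
# Reduction of "no Frey package with `p ∈ {5, 7, 11, 13}`" to the second case in `𝓞 K`

* `caseII_int_of_gen`: the generalized second-case statement in the ring of integers of the
  `p`-th cyclotomic field implies the second case over `ℤ` (`p ∣ c` only).
* `freyPackage_false_of_caseII_int`: the second case over `ℤ` (together with the first case,
  proved in `SophieGermainSmall`) excludes Frey packages with `p ∈ {5, 7, 11, 13}`.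
-/

set_option autoImplicit false

open NumberField

namespace Fermat.Agent.H44

/-- The generalized second case of FLT for exponent `p` in the ring of integers of a `p`-th
cyclotomic field `K`, for the primitive root `ζ`: the equation `a ^ p + b ^ p = u * c ^ p`
(`u` a unit) has no solution with `c ≠ 0`, `λ ∤ a`, `λ ∤ b`, `λ ∣ c`, `a`, `b` coprime,
where `λ = ζ - 1`. -/
def CaseIIGen (p : ℕ) [NeZero p] {K : Type*} [Field K] {ζ : K} (hζ : IsPrimitiveRoot ζ p) :
    Prop :=
  ∀ a b c : 𝓞 K, ∀ u : (𝓞 K)ˣ, c ≠ 0 → ¬ (hζ.toInteger - 1) ∣ a → ¬ (hζ.toInteger - 1) ∣ b →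
    (hζ.toInteger - 1) ∣ c → IsCoprime a b → a ^ p + b ^ p ≠ u * c ^ p

/-- The second case of FLT for exponent `p` over `ℤ`, normalised so that `p ∣ c`. -/
def CaseIIInt (p : ℕ) : Prop :=
  ∀ a b c : ℤ, c ≠ 0 → ¬ (p : ℤ) ∣ a → ¬ (p : ℤ) ∣ b → (p : ℤ) ∣ c → IsCoprime a b →
    a ^ p + b ^ p ≠ c ^ p

theorem caseII_int_of_gen {p : ℕ} [hp : Fact p.Prime] [NeZero p] (hp2 : p ≠ 2) {K : Type*}
    [Field K] [NumberField K] [IsCyclotomicExtension {p} ℚ K] {ζ : K} (hζ : IsPrimitiveRoot ζ p)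
    (H : CaseIIGen p hζ) : CaseIIInt p := by
  intro a b c hc ha hb ⟨x, hx⟩ hcoprime h
  refine H a b c 1 (by simp [hc]) (fun hdvd ↦ ha ?_) (fun hdvd ↦ hb ?_) ?_ ?_ ?_
  · rwa [← Ideal.norm_dvd_iff (hζ.prime_norm_toInteger_sub_one_of_prime_ne_two' hp2),
      hζ.norm_toInteger_sub_one_of_prime_ne_two' hp2] at hdvd
  · rwa [← Ideal.norm_dvd_iff (hζ.prime_norm_toInteger_sub_one_of_prime_ne_two' hp2),
      hζ.norm_toInteger_sub_one_of_prime_ne_two' hp2] at hdvd
  · refine dvd_trans hζ.toInteger_sub_one_dvd_prime' ⟨(x : 𝓞 K), ?_⟩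
    rw [hx]; push_cast; rfl
  · exact IsCoprime.intCast hcoprime
  · simpa using mod_cast h

/-- No nonzero coprime integer solution of `a ^ p + b ^ p = c ^ p` for `p ∈ {5, 7, 11, 13}`,
given the second case over `ℤ`. -/
theorem flt_small_of_caseII_int {p : ℕ} (hp : p = 5 ∨ p = 7 ∨ p = 11 ∨ p = 13)
    (H : CaseIIInt p) {a b c : ℤ} (ha0 : a ≠ 0) (hb0 : b ≠ 0) (hc0 : c ≠ 0)
    (hab : IsCoprime a b) (h : a ^ p + b ^ p = c ^ p) : False := by
  have hpp : p.Prime := by rcases hp with rfl | rfl | rfl | rfl <;> norm_num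
  have hodd : Odd p := by rcases hp with rfl | rfl | rfl | rfl <;> decide
  have hp0 : p ≠ 0 := hpp.ne_zero
  have hpZ : Prime (p : ℤ) := Nat.prime_iff_prime_int.mp hpp
  have hac : IsCoprime a c := isCoprime_left_of_flt hp0 hab h
  have hbc : IsCoprime b c := isCoprime_right_of_flt hp0 hab h
  have hdvd : (p : ℤ) ∣ a * b * c := caseI_of_isCoprime hp a b c hab h
  have hnot : ∀ {x y : ℤ}, IsCoprime x y → (p : ℤ) ∣ x → ¬ (p : ℤ) ∣ y := fun hxy hx hy =>
    hpZ.not_isUnit (hxy.isUnit_of_dvd' hx hy)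
  rcases hpZ.dvd_or_dvd hdvd with hab' | hc
  · rcases hpZ.dvd_or_dvd hab' with ha | hb
    · -- `p ∣ a`: use `c ^ p + (-b) ^ p = a ^ p`
      refine H c (-b) a ha0 (hnot hac ha) ?_ ha hbc.symm.neg_right ?_
      · rw [dvd_neg]; exact hnot hab ha
      · rw [hodd.neg_pow]; linarith
    · -- `p ∣ b`: use `c ^ p + (-a) ^ p = b ^ p`
      refine H c (-a) b hb0 (hnot hbc hb) ?_ hb hac.symm.neg_right ?_
      · rw [dvd_neg]; exact hnot hab.symm hb
      · rw [hodd.neg_pow]; linarith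
  · exact H a b c hc0 (hnot hac.symm hc) (hnot hbc.symm hc) hc hab h

/-- A Frey package with `p ∈ {5, 7, 11, 13}` does not exist, given the second case over `ℤ`. -/
theorem freyPackage_false_of_caseII_int (P : FreyPackage)
    (hp : P.p = 5 ∨ P.p = 7 ∨ P.p = 11 ∨ P.p = 13) (H : CaseIIInt P.p) : False := by
  have hab : IsCoprime P.a P.b := by
    rw [← gcd_isUnit_iff, P.hgcdab]; exact isUnit_one
  exact flt_small_of_caseII_int hp H P.ha0 P.hb0 P.hc0 hab P.hFLT

/-- A Frey package with `p ∈ {5, 7, 11, 13}` does not exist, given the generalized second case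
in the ring of integers of the `p`-th cyclotomic field. -/
theorem freyPackage_false_of_caseII_gen (P : FreyPackage)
    (hp : P.p = 5 ∨ P.p = 7 ∨ P.p = 11 ∨ P.p = 13) [NeZero P.p] {K : Type*}
    [Field K] [NumberField K] [IsCyclotomicExtension {P.p} ℚ K] {ζ : K}
    (hζ : IsPrimitiveRoot ζ P.p) (H : CaseIIGen P.p hζ) : False := by
  have : Fact P.p.Prime := ⟨P.pp⟩
  have hp2 : P.p ≠ 2 := by have := P.hp5; omega
  exact freyPackage_false_of_caseII_int P hp (caseII_int_of_gen hp2 hζ H)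

end Fermat.Agent.H44
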