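import Mathlib
import Fermat.Prelude.Def_FLTPrelim_FreyPackage
import Fermat.Prelude.Def_FLTPrelim_GaloisRep
import Fermat.Prelude.Def_FLTPrelim_Modularity
import Fermat.Prelude.Def_FLTPrelim_ModularRep
import Fermat.Prelude.Def_FLTPrelim_Ramification
import Fermat.Prelude.Def_FreyPackage_IsConductorLevel

/-!
Conditional glue for S45 (`FreyPackage.level_lowering_to_two`):
S45 follows from S06 + S05 + S43 + S44 (taken here as hypotheses).
-/

set_option autoImplicit false

open WeierstrassCurve WeierstrassCurve.Affine WeierstrassCurve.Affine.Point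
open CuspForm ModularFormClass UpperHalfPlane

namespace Fermat.Agent.H44

/-- Descend through a conductor level, removing every odd prime. -/
theorem exists_modularRep_dvd_two (P : FreyPackage)
    (h05 : ∀ q : ℕ, q.Prime → q ≠ 2 → q ≠ P.p → P.GaloisRepUnramifiedAt q)
    (h43 : ∀ N q : ℕ, P.IsConductorLevel N → q.Prime → q ≠ 2 → q ≠ P.p → q ∣ N →
      P.ModularRepOfLevel N → P.GaloisRepUnramifiedAt q →
      ∃ M : ℕ, M ∣ N ∧ ¬ q ∣ M ∧ P.ModularRepOfLevel M)
    (h44 : ∀ N : ℕ, P.IsConductorLevel N → P.p ∣ N → P.ModularRepOfLevel N →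
      ∃ M : ℕ, M ∣ N ∧ ¬ P.p ∣ M ∧ P.ModularRepOfLevel M) :
    ∀ N : ℕ, P.IsConductorLevel N → P.ModularRepOfLevel N →
      ∃ M : ℕ, M ∣ 2 ∧ P.ModularRepOfLevel M := by
  intro N
  induction N using Nat.strong_induction_on with
  | _ N ih =>
    intro hcond hmod
    by_cases hodd : ∃ q : ℕ, q.Prime ∧ q ≠ 2 ∧ q ∣ N
    · obtain ⟨q, hq, hq2, hqN⟩ := hodd
      have key : ∃ M : ℕ, M ∣ N ∧ ¬ q ∣ M ∧ P.ModularRepOfLevel M := by
        by_cases hqp : q = P.p
        · subst hqp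
          exact h44 N hcond hqN hmod
        · exact h43 N q hcond hq hq2 hqp hqN hmod (h05 q hq hq2 hqp)
      obtain ⟨M, hMN, hqM, hM⟩ := key
      have hMpos : 0 < M := Nat.pos_of_dvd_of_pos hMN hcond.pos
      have hMlt : M < N := by
        rcases (Nat.le_of_dvd hcond.pos hMN).lt_or_eq with h | h
        · exact h
        · exact absurd (h ▸ hqN) hqM
      exact ih M hMlt (hcond.of_dvd hMN hMpos) hM
    · refine ⟨N, ?_, hmod⟩
      -- `N` is squarefree with no odd prime factor, hence divides `2`.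
      have hsq := hcond.squarefree
      push Not at hodd
      have hpf : ∀ q ∈ N.primeFactors, q = 2 := by
        intro q hq
        have hq' := Nat.mem_primeFactors.mp hq
        by_contra hne
        exact hodd q hq'.1 hne hq'.2.1
      have hprod : ∏ q ∈ N.primeFactors, q = N := Nat.prod_primeFactors_of_squarefree hsq
      have hsub : N.primeFactors ⊆ {2} := fun q hq => Finset.mem_singleton.mpr (hpf q hq)
      rcases Finset.subset_singleton_iff.mp hsub with h | h
      · rw [h] at hprod; simp at hprod; rw [← hprod]; exact one_dvd _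
      · rw [h] at hprod; simp at hprod; rw [← hprod]

end Fermat.Agent.H44

namespace Fermat.Agent.H44

/-- Restrict a cusp form to a smaller subgroup. -/
noncomputable def cuspFormRestrict {Γ Γ' : Subgroup (GL (Fin 2) ℝ)} (h : Γ' ≤ Γ) {k : ℤ}
    (f : CuspForm Γ k) : CuspForm Γ' k where
  toFun := f
  slash_action_eq' := fun γ hγ => f.slash_action_eq' γ (h hγ)
  holo' := f.holo'
  zero_at_cusps' := fun hc => f.zero_at_cusps' (hc.mono h)

theorem cuspFormRestrict_ne_zero {Γ Γ' : Subgroup (GL (Fin 2) ℝ)} (h : Γ' ≤ Γ) {k : ℤ}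
    (f : CuspForm Γ k) (hf : f ≠ 0) : cuspFormRestrict h f ≠ 0 := by
  intro h0
  apply hf
  ext z
  have := congrArg (fun g : CuspForm Γ' k => g z) h0
  exact this

theorem gamma0_two_le_gamma0_one :
    ((CongruenceSubgroup.Gamma0 2 : Subgroup (Matrix.SpecialLinearGroup (Fin 2) ℤ)) :
        Subgroup (GL (Fin 2) ℝ)) ≤
      ((CongruenceSubgroup.Gamma0 1 : Subgroup (Matrix.SpecialLinearGroup (Fin 2) ℤ)) :
        Subgroup (GL (Fin 2) ℝ)) := by
  apply Subgroup.map_mono
  intro γ _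
  rw [CongruenceSubgroup.Gamma0_mem]
  exact Subsingleton.elim _ _

/-- S45 from S05, S06, S43, S44. -/
theorem level_lowering_to_two_of_chain (P : FreyPackage)
    (h06 : ∃ N : ℕ, P.IsConductorLevel N ∧ P.ModularRepOfLevel N)
    (h05 : ∀ q : ℕ, q.Prime → q ≠ 2 → q ≠ P.p → P.GaloisRepUnramifiedAt q)
    (h43 : ∀ N q : ℕ, P.IsConductorLevel N → q.Prime → q ≠ 2 → q ≠ P.p → q ∣ N →
      P.ModularRepOfLevel N → P.GaloisRepUnramifiedAt q →
      ∃ M : ℕ, M ∣ N ∧ ¬ q ∣ M ∧ P.ModularRepOfLevel M)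
    (h44 : ∀ N : ℕ, P.IsConductorLevel N → P.p ∣ N → P.ModularRepOfLevel N →
      ∃ M : ℕ, M ∣ N ∧ ¬ P.p ∣ M ∧ P.ModularRepOfLevel M) :
    ∃ f : CuspForm (CongruenceSubgroup.Gamma0 2) 2, f ≠ 0 := by
  obtain ⟨N, hcond, hmod⟩ := h06
  obtain ⟨M, hM2, hM⟩ := exists_modularRep_dvd_two P h05 h43 h44 N hcond hmod
  have hM12 : M = 1 ∨ M = 2 := (Nat.dvd_prime Nat.prime_two).mp hM2
  rcases hM12 with rfl | rfl
  · obtain ⟨f, -, -, hf, -⟩ := hM
    exact ⟨cuspFormRestrict gamma0_two_le_gamma0_one f,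
      cuspFormRestrict_ne_zero _ f hf.ne_zero⟩
  · obtain ⟨f, -, -, hf, -⟩ := hM
    exact ⟨f, hf.ne_zero⟩

end Fermat.Agent.H44
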